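import Fermat.Agent.S55.L.Unr534.Main
import Fermat.Agent.S55.L.Inv481.Inputs
import Fermat.Agent.S55.L.RingOfIntegersUnique775

/-!
# S55, layer L (helper534): `UnrNestSpec` and `UnrBCSpec` closed

The two inputs of leaf L-C2 (`Inv481.inv_of`) about unramified subextensions, in EXACTLY the
shape of `L/Inv481/Inputs.lean`, unconditionally.
-/

set_option autoImplicit false

namespace Fermat.Agent.S55.L.Unr534

/-- **UnrNestSpec**: unramified subextensions of a finite extension are nested by degree. -/
theorem unrNestSpec534 : Inv481.UnrNestSpec := unrNest534 ringOfIntegersUnique775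

/-- **UnrBCSpec**: the compositum of an unramified extension with a finite extension is
unramified over the latter. -/
theorem unrBCSpec534 : Inv481.UnrBCSpec := unrBC534 ringOfIntegersUnique775

end Fermat.Agent.S55.L.Unr534
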