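import Fermat.Agent.S55.L.SpecInv
import Fermat.Agent.S55.L.H661.IntClosure

/-!
# S55, layer L, unramified extensions (helper534): counting in the ring of integers

Abstract setting: `A` a complete DVR with finite residue field, `K = Frac A` of characteristic
zero, `E / K` a finite extension, `C := integralClosure A E`.

* `card_quot_map534`    : `|C / 𝔪_A C| = Q ^ [E : K]`, `Q = |A / 𝔪_A|`;
* `card_residue_le534`  : `|C / 𝔪_C| ≤ Q ^ [E : K]`;
* `map_eq_of_card534`   : equality of cardinalities implies `𝔪_A C = 𝔪_C`.
-/

set_option autoImplicit false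
set_option linter.style.haveILetI false
set_option linter.unusedSectionVars false

namespace Fermat.Agent.S55.L.Unr534

open IsLocalRing Polynomial

section Core

variable (A K : Type) [CommRing A] [IsDomain A] [IsDiscreteValuationRing A]
  [IsAdicComplete (maximalIdeal A) A] [Finite (ResidueField A)] [Field K] [CharZero K]
  [Algebra A K] [IsFractionRing A K]
  (E : Type) [Field E] [Algebra K E] [FiniteDimensional K E] [Algebra A E] [IsScalarTower A K E]

/-- The ring of integers of `E`. -/
abbrev OE : Subalgebra A E := integralClosure A E

include K in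
theorem isLocalRing_OE : IsLocalRing (OE A E) :=
  H661.intClosure_isLocalRing A K E (OE A E)

include K in
theorem isDVR_OE : IsDiscreteValuationRing (OE A E) :=
  H661.intClosure_isDVR A K E (OE A E)

include K in
theorem finite_OE : Module.Finite A (OE A E) := H661.intClosure_finite A K E (OE A E)

include K in
theorem free_OE : Module.Free A (OE A E) := H661.intClosure_free A K E (OE A E)

include K in
theorem isLocalHom_OE : haveI := isLocalRing_OE A K E; IsLocalHom (algebraMap A (OE A E)) :=
  haveI := isLocalRing_OE A K E
  H661.intClosure_isLocalHom A K E (OE A E)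

include K in
theorem isAdicComplete_OE :
    haveI := isLocalRing_OE A K E; IsAdicComplete (maximalIdeal (OE A E)) (OE A E) :=
  haveI := isLocalRing_OE A K E
  H661.intClosure_isAdicComplete A K E (OE A E)

include K in
theorem finite_residueField_OE :
    haveI := isLocalRing_OE A K E; Finite (ResidueField (OE A E)) :=
  haveI := isLocalRing_OE A K E
  H661.intClosure_finite_residueField A K E (OE A E)

include K in
theorem map_maximalIdeal_le_OE :
    haveI := isLocalRing_OE A K E
    (maximalIdeal A).map (algebraMap A (OE A E)) ≤ maximalIdeal (OE A E) :=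
  haveI := isLocalRing_OE A K E
  H661.intClosure_map_maximalIdeal_le A K E (OE A E)

include K in
theorem finrank_OE : Module.finrank A (OE A E) = Module.finrank K E := by
  haveI : Module.IsTorsionFree A E := .trans_faithfulSMul A K E
  exact IsIntegralClosure.rank A K E (OE A E)

attribute [local instance] Ideal.Quotient.field in
/-- `|C / 𝔪_A C| = Q ^ [E : K]`. -/
theorem card_quot_map534 :
    Nat.card (OE A E ⧸ (maximalIdeal A).map (algebraMap A (OE A E))) =
      Nat.card (ResidueField A) ^ Module.finrank K E := by
  haveI := finite_OE A K E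
  haveI := free_OE A K E
  have h1 : Module.finrank (A ⧸ maximalIdeal A)
      (OE A E ⧸ (maximalIdeal A).map (algebraMap A (OE A E))) = Module.finrank A (OE A E) :=
    IsLocalRing.finrank_quotient_map
  haveI : Module.Finite (A ⧸ maximalIdeal A)
      (OE A E ⧸ (maximalIdeal A).map (algebraMap A (OE A E))) :=
    Module.Finite.of_restrictScalars_finite A _ _
  rw [Module.natCard_eq_pow_finrank (K := A ⧸ maximalIdeal A), h1, finrank_OE A K E]
  rfl

include K in
/-- `|C / 𝔪_C| ≤ Q ^ [E : K]`. -/
theorem card_residue_le534 :
    haveI := isLocalRing_OE A K E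
    Nat.card (ResidueField (OE A E)) ≤ Nat.card (ResidueField A) ^ Module.finrank K E := by
  haveI := isLocalRing_OE A K E
  have hle := map_maximalIdeal_le_OE A K E
  rw [← card_quot_map534 A K E]
  have hpos : 0 < Nat.card (ResidueField A) ^ Module.finrank K E :=
    pow_pos Nat.card_pos _
  haveI : Finite (OE A E ⧸ (maximalIdeal A).map (algebraMap A (OE A E))) := by
    apply Nat.finite_of_card_ne_zero
    rw [card_quot_map534 A K E]
    exact hpos.ne'
  exact Nat.card_le_card_of_surjective (Ideal.Quotient.factor hle)
    (Ideal.Quotient.factor_surjective hle)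

include K in
/-- If `|C / 𝔪_C| = Q ^ [E : K]` then `𝔪_A C = 𝔪_C`. -/
theorem map_eq_of_card534
    (h : haveI := isLocalRing_OE A K E
      Nat.card (ResidueField A) ^ Module.finrank K E ≤ Nat.card (ResidueField (OE A E))) :
    haveI := isLocalRing_OE A K E
    (maximalIdeal A).map (algebraMap A (OE A E)) = maximalIdeal (OE A E) := by
  haveI := isLocalRing_OE A K E
  have hle := map_maximalIdeal_le_OE A K E
  have hpos : 0 < Nat.card (ResidueField A) ^ Module.finrank K E :=
    pow_pos Nat.card_pos _
  haveI : Finite (OE A E ⧸ (maximalIdeal A).map (algebraMap A (OE A E))) := by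
    apply Nat.finite_of_card_ne_zero
    rw [card_quot_map534 A K E]
    exact hpos.ne'
  have hcard : Nat.card (OE A E ⧸ (maximalIdeal A).map (algebraMap A (OE A E))) ≤
      Nat.card (OE A E ⧸ maximalIdeal (OE A E)) := by
    rw [card_quot_map534 A K E]
    exact h
  have hbij : Function.Bijective (Ideal.Quotient.factor hle) :=
    (Function.Surjective.bijective_of_nat_card_le (Ideal.Quotient.factor_surjective hle) hcard)
  refine le_antisymm hle fun x hx => ?_
  have h0 : Ideal.Quotient.factor hle (Ideal.Quotient.mk _ x) = 0 := by
    rw [Ideal.Quotient.factor_mk]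
    exact Ideal.Quotient.eq_zero_iff_mem.mpr hx
  have h1 : (Ideal.Quotient.mk ((maximalIdeal A).map (algebraMap A (OE A E))) x) = 0 :=
    hbij.1 (by rw [h0, map_zero])
  exact Ideal.Quotient.eq_zero_iff_mem.mp h1

end Core

end Fermat.Agent.S55.L.Unr534
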