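import Mathlib

/-!
# S55, layer L, unramified extensions (helper534): Teichmüller lifts

`R` a local domain, complete for its maximal ideal, with finite residue field of cardinality `q`.

* `exists_teich534`       : there is `ω : R` with `ω ^ (q - 1) = 1` whose residue generates the
                            multiplicative group of the residue field;
* `eq_one_of_pow_eq_one534` : roots of unity of order prime to the residue characteristic
                            inject into the residue field.
-/

set_option autoImplicit false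
set_option linter.style.haveILetI false
set_option linter.unusedSectionVars false

namespace Fermat.Agent.S55.L.Unr534

open IsLocalRing Polynomial

section Teich

variable (R : Type) [CommRing R] [IsLocalRing R] [IsAdicComplete (maximalIdeal R) R]
  [Finite (ResidueField R)]

theorem two_le_card_residue534 : 2 ≤ Nat.card (ResidueField R) := by
  have := Finite.one_lt_card (α := ResidueField R)
  omega

theorem card_residue_cast534 : ((Nat.card (ResidueField R) : ℕ) : ResidueField R) = 0 := by
  letI := Fintype.ofFinite (ResidueField R)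
  rw [Nat.card_eq_fintype_card]
  exact FiniteField.cast_card_eq_zero _

theorem residue_pow_card_sub_one534 (x : ResidueField R) (hx : x ≠ 0) :
    x ^ (Nat.card (ResidueField R) - 1) = 1 := by
  letI := Fintype.ofFinite (ResidueField R)
  rw [Nat.card_eq_fintype_card]
  exact FiniteField.pow_card_sub_one_eq_one x hx

/-- A Teichmüller generator: `ω ^ (q - 1) = 1` and every unit of `R` is congruent to a power of
`ω` modulo the maximal ideal; moreover `ω` has exact order `q - 1`. -/
theorem exists_teich534 :
    ∃ ω : R, ω ^ (Nat.card (ResidueField R) - 1) = 1 ∧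
      (∀ l : ℕ, ω ^ l = 1 → (Nat.card (ResidueField R) - 1) ∣ l) ∧
      ∀ x : R, x ∉ maximalIdeal R → ∃ i : ℕ, x - ω ^ i ∈ maximalIdeal R := by
  classical
  set q := Nat.card (ResidueField R) with hq
  have hq2 : 2 ≤ q := two_le_card_residue534 R
  obtain ⟨g, hg⟩ := IsCyclic.exists_generator (α := (ResidueField R)ˣ)
  have hord : orderOf g = q - 1 := by
    rw [orderOf_eq_card_of_forall_mem_zpowers hg, Nat.card_units]
  obtain ⟨a₀, ha₀⟩ := residue_surjective (R := R) (g : ResidueField R)
  have hmonic : (X ^ (q - 1) - 1 : R[X]).Monic :=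
    monic_X_pow_sub_C (1 : R) (by omega)
  have hg0 : (g : ResidueField R) ≠ 0 := g.ne_zero
  have h1 : eval a₀ (X ^ (q - 1) - 1 : R[X]) ∈ maximalIdeal R := by
    rw [← residue_eq_zero_iff]
    simp only [eval_sub, eval_pow, eval_X, eval_one, map_sub, map_pow, map_one, ha₀]
    rw [residue_pow_card_sub_one534 R _ hg0, sub_self]
  have h2 : IsUnit (Ideal.Quotient.mk (maximalIdeal R)
      (eval a₀ (derivative (X ^ (q - 1) - 1 : R[X])))) := by
    have h3 : Ideal.Quotient.mk (maximalIdeal R)
        (eval a₀ (derivative (X ^ (q - 1) - 1 : R[X]))) =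
        ((q - 1 : ℕ) : ResidueField R) * (g : ResidueField R) ^ (q - 1 - 1) := by
      simp only [derivative_sub, derivative_X_pow, derivative_one, sub_zero, eval_mul,
        eval_pow, eval_X, eval_natCast, map_mul, map_pow, map_natCast]
      rw [← ha₀]
      rfl
    rw [h3]
    have h4 : ((q - 1 : ℕ) : ResidueField R) = -1 := by
      have := card_residue_cast534 R
      rw [← hq] at this
      rw [Nat.cast_sub (by omega), this]
      simp
    rw [h4]
    exact (isUnit_one.neg).mul (IsUnit.pow _ g.isUnit)
  obtain ⟨ω, hω, hωa⟩ := HenselianRing.is_henselian (I := maximalIdeal R) _ hmonic a₀ h1 h2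
  have hres : residue R ω = (g : ResidueField R) := by
    rw [← ha₀, ← sub_eq_zero, ← map_sub, residue_eq_zero_iff]
    exact hωa
  have hω1 : ω ^ (q - 1) = 1 := by
    have : eval ω (X ^ (q - 1) - 1 : R[X]) = 0 := hω
    simpa [sub_eq_zero] using this
  refine ⟨ω, hω1, fun l hl => ?_, fun x hx => ?_⟩
  · have h5 : (g : ResidueField R) ^ l = 1 := by
      rw [← hres, ← map_pow, hl, map_one]
    have h6 : g ^ l = 1 := Units.ext (by simpa using h5)
    rw [← hord]
    exact orderOf_dvd_of_pow_eq_one h6
  · have hx0 : residue R x ≠ 0 := fun h => hx ((residue_eq_zero_iff x).mp h)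
    obtain ⟨i, hi⟩ := (Subgroup.mem_zpowers_iff).mp (hg (Units.mk0 _ hx0))
    -- reduce to a natural exponent
    have hfin : IsOfFinOrder g := isOfFinOrder_of_finite g
    obtain ⟨j, hj⟩ : ∃ j : ℕ, g ^ j = Units.mk0 _ hx0 := by
      have : Units.mk0 _ hx0 ∈ Submonoid.powers g :=
        (hfin.mem_powers_iff_mem_zpowers).mpr (hg _)
      obtain ⟨j, hj⟩ := this
      exact ⟨j, hj⟩
    refine ⟨j, ?_⟩
    rw [← residue_eq_zero_iff, map_sub, map_pow, hres, sub_eq_zero]
    have := congrArg (fun u : (ResidueField R)ˣ => (u : ResidueField R)) hj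
    simpa using this.symm

end Teich

section Inj

variable {R : Type} [CommRing R] [IsDomain R] [IsLocalRing R]

/-- Roots of unity of order `m`, `m` a unit of `R`, inject into the residue field. -/
theorem eq_one_of_pow_eq_one534 {m : ℕ} (hm : IsUnit ((m : ℕ) : R)) {ζ : R} (hζ : ζ ^ m = 1)
    (h1 : ζ - 1 ∈ maximalIdeal R) : ζ = 1 := by
  have h2 : (ζ - 1) * ∑ i ∈ Finset.range m, ζ ^ i = 0 := by
    rw [mul_geom_sum, hζ, sub_self]
  have h3 : IsUnit (∑ i ∈ Finset.range m, ζ ^ i) := by
    rw [← notMem_maximalIdeal, ← residue_eq_zero_iff]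
    have hz : residue R ζ = 1 := by
      rw [← sub_eq_zero, ← map_one (residue R), ← map_sub, residue_eq_zero_iff]
      exact h1
    simp only [map_sum, map_pow, hz, one_pow, Finset.sum_const, Finset.card_range,
      nsmul_eq_mul, mul_one]
    rw [← map_natCast (residue R), residue_eq_zero_iff]
    exact notMem_maximalIdeal.mpr hm
  rcases mul_eq_zero.mp h2 with h | h
  · exact sub_eq_zero.mp h
  · exact absurd h h3.ne_zero

end Inj

end Fermat.Agent.S55.L.Unr534
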