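import Fermat.Agent.S55.L.Unr534.Core
import Fermat.Agent.S55.L.Unr534.Teich

/-!
# S55, layer L, unramified extensions (helper534): structure of unramified extensions

Abstract setting of `Core.lean`.  `E / K` is *unramified* if `𝔪_A C = 𝔪_C`.

* `exists_primitiveRoot_of_unram534` : if `E / K` is unramified of degree `n` then `E = K(ζ)` for a
  primitive `(Q ^ n - 1)`-th root of unity `ζ`;
* `unram_of_adjoin_root534` : if `E = K(ζ)` with `ζ ^ m = 1`, `m` a unit of `A`, then `E / K` is
  unramified.
-/

set_option autoImplicit false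
set_option linter.style.haveILetI false
set_option linter.unusedSectionVars false

namespace Fermat.Agent.S55.L.Unr534

open IsLocalRing Polynomial IntermediateField

section Abs

variable (A K : Type) [CommRing A] [IsDomain A] [IsDiscreteValuationRing A]
  [IsAdicComplete (maximalIdeal A) A] [Finite (ResidueField A)] [Field K] [CharZero K]
  [Algebra A K] [IsFractionRing A K]
  (E : Type) [Field E] [Algebra K E] [FiniteDimensional K E] [Algebra A E] [IsScalarTower A K E]

include K in
/-- In the unramified case the residue field of `E` has `Q ^ [E : K]` elements. -/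
theorem card_residue_of_unram534
    (hunr : haveI := isLocalRing_OE A K E
      (maximalIdeal A).map (algebraMap A (OE A E)) = maximalIdeal (OE A E)) :
    haveI := isLocalRing_OE A K E
    Nat.card (ResidueField (OE A E)) = Nat.card (ResidueField A) ^ Module.finrank K E := by
  haveI := isLocalRing_OE A K E
  rw [← card_quot_map534 A K E]
  show Nat.card (OE A E ⧸ maximalIdeal (OE A E)) = _
  rw [hunr]

theorem isScalarTower_inter534 (E₀ : IntermediateField K E) : IsScalarTower A E₀ E :=
  IsScalarTower.of_algebraMap_eq (fun x => by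
    rw [IsScalarTower.algebraMap_apply A K E, IsScalarTower.algebraMap_apply A K E₀]
    rfl)

/-- The inclusion of rings of integers `O_{E₀} → O_E` for an intermediate field `E₀`. -/
noncomputable def inclOE (E₀ : IntermediateField K E) : OE A E₀ →+* OE A E :=
  haveI := isScalarTower_inter534 A K E E₀
  RingHom.codRestrict ((algebraMap E₀ E).comp (algebraMap (OE A E₀) E₀)) (OE A E) (by
    intro x
    have hx : IsIntegral A (x : E₀) := x.2
    exact hx.map (IsScalarTower.toAlgHom A E₀ E))

@[simp] theorem coe_inclOE (E₀ : IntermediateField K E) (x : OE A E₀) :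
    ((inclOE A K E E₀ x : OE A E) : E) = ((x : E₀) : E) := rfl

include K in
/-- If `E / K` is unramified of degree `n` then `E = K(ζ)` for a primitive `(Q ^ n - 1)`-th
root of unity `ζ`. -/
theorem exists_primitiveRoot_of_unram534
    (hunr : haveI := isLocalRing_OE A K E
      (maximalIdeal A).map (algebraMap A (OE A E)) = maximalIdeal (OE A E)) :
    ∃ ζ : E, IsPrimitiveRoot ζ (Nat.card (ResidueField A) ^ Module.finrank K E - 1) ∧
      IntermediateField.adjoin K {ζ} = ⊤ := by
  haveI := isLocalRing_OE A K E
  haveI := isAdicComplete_OE A K E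
  haveI := finite_residueField_OE A K E
  have hcard := card_residue_of_unram534 A K E hunr
  obtain ⟨ω, hω1, hω2, hω3⟩ := exists_teich534 (OE A E)
  rw [hcard] at hω1 hω2
  have hprim : IsPrimitiveRoot (ω : E)
      (Nat.card (ResidueField A) ^ Module.finrank K E - 1) := by
    rw [IsPrimitiveRoot.iff_def]
    refine ⟨?_, fun l hl => hω2 l (Subtype.ext ?_)⟩
    · have := congrArg (fun x : OE A E => (x : E)) hω1
      simpa using this
    · simpa using hl
  refine ⟨(ω : E), hprim, ?_⟩
  -- the subfield generated by `ω`
  set E₀ : IntermediateField K E := K⟮(ω : E)⟯ with hE₀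
  haveI := isLocalRing_OE A K E₀
  haveI := isScalarTower_inter534 A K E E₀
  have hωint : IsIntegral A (⟨(ω : E), mem_adjoin_simple_self K (ω : E)⟩ : E₀) := by
    have h1 : IsIntegral A ((IsScalarTower.toAlgHom A E₀ E)
        (⟨(ω : E), mem_adjoin_simple_self K (ω : E)⟩ : E₀)) := ω.2
    exact (isIntegral_algHom_iff (IsScalarTower.toAlgHom A E₀ E)
      (algebraMap E₀ E).injective).mp h1
  set ω₀ : OE A E₀ := ⟨⟨(ω : E), mem_adjoin_simple_self K (ω : E)⟩, hωint⟩ with hω₀
  have hincl : inclOE A K E E₀ ω₀ = ω := Subtype.ext rfl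
  -- the surjection onto the residue field
  set φ : OE A E₀ →+* ResidueField (OE A E) := (residue (OE A E)).comp (inclOE A K E E₀) with hφ
  have hsurj : Function.Surjective φ := by
    intro y
    obtain ⟨x, rfl⟩ := residue_surjective (R := OE A E) y
    by_cases hx : x ∈ maximalIdeal (OE A E)
    · refine ⟨0, ?_⟩
      rw [map_zero]
      exact ((residue_eq_zero_iff x).mpr hx).symm
    · obtain ⟨i, hi⟩ := hω3 x hx
      refine ⟨ω₀ ^ i, ?_⟩
      rw [hφ, RingHom.comp_apply, map_pow, hincl]
      have := (residue_eq_zero_iff _).mpr hi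
      rw [map_sub, sub_eq_zero] at this
      exact this.symm
  have hker : RingHom.ker φ = maximalIdeal (OE A E₀) :=
    eq_maximalIdeal (RingHom.ker_isMaximal_of_surjective φ hsurj)
  have hcard2 : Nat.card (ResidueField (OE A E)) = Nat.card (ResidueField (OE A E₀)) := by
    have e := RingHom.quotientKerEquivOfSurjective hsurj
    rw [← Nat.card_congr e.toEquiv, hker]
    rfl
  have hle := card_residue_le534 A K E₀
  rw [← hcard2, hcard] at hle
  have hn : Module.finrank K E ≤ Module.finrank K E₀ :=
    (Nat.pow_le_pow_iff_right (two_le_card_residue534 A)).mp hle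
  refine IntermediateField.eq_of_le_of_finrank_le le_top ?_
  rw [IntermediateField.finrank_top']
  exact hn

include K in
/-- Two `K`-automorphisms of `E = K(ζ)` which agree on `ζ` are equal. -/
theorem algEquiv_ext_of_adjoin534 (ζ : E) (htop : IntermediateField.adjoin K {ζ} = ⊤)
    (σ σ' : E ≃ₐ[K] E) (h : σ ζ = σ' ζ) : σ = σ' := by
  have halg : IsAlgebraic K ζ := Algebra.IsAlgebraic.isAlgebraic ζ
  have h1 : Algebra.adjoin K {ζ} = ⊤ := by
    rw [← IntermediateField.adjoin_simple_toSubalgebra_of_isAlgebraic halg, htop]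
    rfl
  have h2 : (σ : E →ₐ[K] E) = (σ' : E →ₐ[K] E) :=
    AlgHom.ext_of_adjoin_eq_top h1 (fun x hx => by
      rw [Set.mem_singleton_iff] at hx
      subst hx
      exact h)
  exact AlgEquiv.ext (fun x => DFunLike.congr_fun h2 x)

/-- The action of `Gal(E/K)` on the residue field of `E`. -/
noncomputable def resAut534 (σ : E ≃ₐ[K] E) :
    haveI := isLocalRing_OE A K E
    ResidueField (OE A E) →+* ResidueField (OE A E) :=
  haveI := isLocalRing_OE A K E
  ResidueField.map ((galRestrict A K E (OE A E) σ : OE A E ≃ₐ[A] OE A E) : OE A E →+* OE A E)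

theorem resAut534_residue (σ : E ≃ₐ[K] E) (x : OE A E) :
    haveI := isLocalRing_OE A K E
    resAut534 A K E σ (residue (OE A E) x) =
      residue (OE A E) (galRestrict A K E (OE A E) σ x) := by
  haveI := isLocalRing_OE A K E
  exact ResidueField.map_residue _ x

/-- The action of `Gal(E/K)` on the residue field of `E`, as an algebra homomorphism over the
residue field of `K`. -/
noncomputable def resAlgHom534 (σ : E ≃ₐ[K] E) :
    haveI := isLocalRing_OE A K E
    haveI := isLocalHom_OE A K E
    ResidueField (OE A E) →ₐ[ResidueField A] ResidueField (OE A E) :=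
  haveI := isLocalRing_OE A K E
  haveI := isLocalHom_OE A K E
  { resAut534 A K E σ with
    commutes' := fun r => by
      obtain ⟨a, rfl⟩ := residue_surjective (R := A) r
      rw [ResidueField.algebraMap_residue]
      show resAut534 A K E σ _ = _
      rw [resAut534_residue, AlgEquiv.commutes] }

theorem resAlgHom534_residue (σ : E ≃ₐ[K] E) (x : OE A E) :
    haveI := isLocalRing_OE A K E
    haveI := isLocalHom_OE A K E
    resAlgHom534 A K E σ (residue (OE A E) x) =
      residue (OE A E) (galRestrict A K E (OE A E) σ x) :=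
  resAut534_residue A K E σ x

include K in
/-- If `E = K(ζ)` with `ζ ^ m = 1`, `m` a unit of `A`, then `E / K` is unramified. -/
theorem unram_of_adjoin_root534 (ζ : E) (m : ℕ) (hm : IsUnit ((m : ℕ) : A)) (hζ : ζ ^ m = 1)
    (htop : IntermediateField.adjoin K {ζ} = ⊤) :
    haveI := isLocalRing_OE A K E
    (maximalIdeal A).map (algebraMap A (OE A E)) = maximalIdeal (OE A E) := by
  classical
  haveI := isLocalRing_OE A K E
  haveI := isLocalHom_OE A K E
  haveI := finite_residueField_OE A K E
  have hm0 : 0 < m := by
    rcases Nat.eq_zero_or_pos m with h | h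
    · subst h
      rw [Nat.cast_zero] at hm
      exact absurd hm not_isUnit_zero
    · exact h
  -- `E / K` is Galois
  have hfin : IsOfFinOrder ζ := isOfFinOrder_iff_pow_eq_one.mpr ⟨m, hm0, hζ⟩
  have hd : 0 < orderOf ζ := hfin.orderOf_pos
  haveI : NeZero (orderOf ζ) := ⟨hd.ne'⟩
  have hprim : IsPrimitiveRoot ζ (orderOf ζ) := IsPrimitiveRoot.orderOf ζ
  haveI hcyc : IsCyclotomicExtension {orderOf ζ} K K⟮ζ⟯ :=
    hprim.intermediateField_adjoin_isCyclotomicExtension K
  haveI hgal0 : IsGalois K K⟮ζ⟯ := IsCyclotomicExtension.isGalois {orderOf ζ} K K⟮ζ⟯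
  haveI hgal1 : IsGalois K (⊤ : IntermediateField K E) := htop ▸ hgal0
  haveI hgal : IsGalois K E := IsGalois.of_algEquiv (IntermediateField.topEquiv (F := K) (E := E))
  -- the root of unity in the ring of integers
  have hint : IsIntegral A ζ := IsIntegral.of_pow hm0 (by rw [hζ]; exact isIntegral_one)
  set ζC : OE A E := ⟨ζ, hint⟩ with hζC
  have hmC : IsUnit ((m : ℕ) : OE A E) := by
    have := hm.map (algebraMap A (OE A E))
    rwa [map_natCast] at this
  -- injectivity
  have hinj : Function.Injective (resAlgHom534 A K E) := by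
    intro σ σ' hσ
    apply algEquiv_ext_of_adjoin534 K E ζ htop
    set u : OE A E := galRestrict A K E (OE A E) σ ζC with hu
    set v : OE A E := galRestrict A K E (OE A E) σ' ζC with hv
    have hum : u ^ m = 1 := by
      rw [hu, ← map_pow]
      have : ζC ^ m = 1 := Subtype.ext (by simpa using hζ)
      rw [this, map_one]
    have hvm : v ^ m = 1 := by
      rw [hv, ← map_pow]
      have : ζC ^ m = 1 := Subtype.ext (by simpa using hζ)
      rw [this, map_one]
    have huv : u - v ∈ maximalIdeal (OE A E) := by
      rw [← residue_eq_zero_iff, map_sub, sub_eq_zero, hu, hv, ← resAlgHom534_residue,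
        ← resAlgHom534_residue, hσ]
    have hvv : v * v ^ (m - 1) = 1 := by
      rw [← pow_succ', Nat.sub_add_cancel hm0, hvm]
    have hw : (u * v ^ (m - 1)) ^ m = 1 := by
      rw [mul_pow, hum, one_mul, ← pow_mul, mul_comm, pow_mul, hvm, one_pow]
    have hw1 : u * v ^ (m - 1) - 1 ∈ maximalIdeal (OE A E) := by
      have : u * v ^ (m - 1) - 1 = (u - v) * v ^ (m - 1) := by
        rw [sub_mul, hvv]
      rw [this]
      exact Ideal.mul_mem_right _ _ huv
    have hone := eq_one_of_pow_eq_one534 hmC hw hw1
    have huv' : u = v := by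
      have h3 : u * v ^ (m - 1) = v * v ^ (m - 1) := by rw [hone, hvv]
      have h4 : IsUnit (v ^ (m - 1)) := IsUnit.of_mul_eq_one _ (by rw [mul_comm]; exact hvv)
      exact h4.mul_left_injective h3
    have h5 := congrArg (fun x : OE A E => (x : E)) huv'
    have h6 : ((u : OE A E) : E) = σ ζ := algebraMap_galRestrict_apply A σ ζC
    have h7 : ((v : OE A E) : E) = σ' ζ := algebraMap_galRestrict_apply A σ' ζC
    rw [← h6, ← h7]
    exact h5
  -- counting
  haveI : Module.Finite (ResidueField A) (ResidueField (OE A E)) := Module.Finite.of_finite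
  have h1 : Nat.card (E ≃ₐ[K] E) = Module.finrank K E := IsGalois.card_aut_eq_finrank K E
  have h2 : Nat.card (E ≃ₐ[K] E) ≤
      Nat.card (ResidueField (OE A E) →ₐ[ResidueField A] ResidueField (OE A E)) :=
    Nat.card_le_card_of_injective _ hinj
  have h3 : Nat.card (ResidueField (OE A E) →ₐ[ResidueField A] ResidueField (OE A E)) ≤
      Module.finrank (ResidueField A) (ResidueField (OE A E)) := by
    rw [Nat.card_eq_fintype_card]
    exact AlgHom.card_le
  have h4 : Nat.card (ResidueField (OE A E)) =
      Nat.card (ResidueField A) ^ Module.finrank (ResidueField A) (ResidueField (OE A E)) :=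
    Module.natCard_eq_pow_finrank
  apply map_eq_of_card534 A K E
  rw [h4]
  exact Nat.pow_le_pow_right Nat.card_pos (by omega)

end Abs

end Fermat.Agent.S55.L.Unr534
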