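import Fermat.Agent.S55.L.Unr534.VS

/-!
# S55, layer L, unramified extensions (helper534): nesting and base change

Inputs of leaf L-C2 (`InvSpec`, helper481, `L/Inv481/Inputs.lean`):

* `unrNest534 : RingOfIntegersUniqueSpec → UnrNestSpec` (statement unfolded);
* `unrBC534   : RingOfIntegersUniqueSpec → UnrBCSpec`   (statement unfolded).

Both follow from the characterisation: `E / K` is unramified iff `E = K(ζ)` for a root of unity
`ζ` of order prime to the residue characteristic
(`exists_root_of_isUnramifiedExt534`, `isUnramifiedExt_of_root534`).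
-/

set_option autoImplicit false
set_option linter.style.haveILetI false
set_option linter.unusedSectionVars false

namespace Fermat.Agent.S55.L.Unr534

open IsLocalRing Polynomial IntermediateField

/-- An unramified extension of degree `n` is generated by a primitive `(Q ^ n - 1)`-th root of
unity, `Q` the cardinality of the residue field of `K`. -/
theorem exists_root_of_isUnramifiedExt534 (h0 : RingOfIntegersUniqueSpec)
    {K : Type} [Field K] [IsLocalFld K] (A : ValuationSubring K) (hA : IsLocalRingOfIntegers A)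
    (E : Type) [Field E] [Algebra K E] [FiniteDimensional K E] (hE : IsUnramifiedExt K E) :
    haveI := hA.1
    ∃ ζ : E, IsPrimitiveRoot ζ (Nat.card (ResidueField A) ^ Module.finrank K E - 1) ∧
      IntermediateField.adjoin K {ζ} = ⊤ := by
  haveI := IsLocalFld.charZero (K := K)
  haveI := hA.1
  haveI := hA.2.1
  haveI := hA.2.2
  obtain ⟨A₁, B, π, hA₁, hB, hπ, hπ'⟩ := hE
  have hAA : A₁ = A := h0 K A₁ A hA₁ hA
  subst hAA
  have hBB : B = intVS534 A₁ E hA := eq_intVS534 A₁ E h0 hA B hB
  subst hBB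
  have hunr := (isUniformizer_intVS_iff534 A₁ E hA π hπ).mp hπ'
  exact exists_primitiveRoot_of_unram534 A₁ K E hunr

/-- `K(ζ) / K` is unramified for a root of unity `ζ` of order prime to the residue
characteristic. -/
theorem isUnramifiedExt_of_root534
    {K : Type} [Field K] [IsLocalFld K] (A : ValuationSubring K) (hA : IsLocalRingOfIntegers A)
    (E : Type) [Field E] [Algebra K E] [FiniteDimensional K E] (ζ : E) (m : ℕ)
    (hm : IsUnit ((m : ℕ) : A)) (hζ : ζ ^ m = 1) (htop : IntermediateField.adjoin K {ζ} = ⊤) :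
    IsUnramifiedExt K E := by
  haveI := IsLocalFld.charZero (K := K)
  haveI := hA.1
  haveI := hA.2.1
  haveI := hA.2.2
  obtain ⟨π, hπ⟩ := exists_isUniformizer534 A hA
  exact ⟨A, intVS534 A E hA, π, hA, isLocalRingOfIntegers_intVS534 A E hA, hπ,
    (isUniformizer_intVS_iff534 A E hA π hπ).mpr (unram_of_adjoin_root534 A K E ζ m hm hζ htop)⟩

/-- The image in `M` of a generator of an intermediate field generates it. -/
theorem eq_adjoin_of_adjoin_eq_top534 {K M : Type} [Field K] [Field M] [Algebra K M]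
    (E : IntermediateField K M) (ζ : E) (htop : IntermediateField.adjoin K {ζ} = ⊤) :
    E = K⟮(ζ : M)⟯ := by
  have h := congrArg (IntermediateField.map E.val) htop
  rw [IntermediateField.adjoin_map, Set.image_singleton, ← AlgHom.fieldRange_eq_map,
    IntermediateField.fieldRange_val] at h
  exact h.symm

/-- The generator of a simple extension generates it. -/
theorem adjoin_gen_eq_top534 {K M : Type} [Field K] [Field M] [Algebra K M] (z : M) :
    IntermediateField.adjoin K {(⟨z, mem_adjoin_simple_self K z⟩ : K⟮z⟯)} = ⊤ := by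
  apply IntermediateField.map_injective (K⟮z⟯).val
  rw [IntermediateField.adjoin_map, Set.image_singleton, ← AlgHom.fieldRange_eq_map,
    IntermediateField.fieldRange_val]
  rfl

theorem one_le_pow_sub_one534 {Q n : ℕ} (hQ : 2 ≤ Q) (hn : 0 < n) : 1 ≤ Q ^ n - 1 := by
  have h1 : Q ^ 1 ≤ Q ^ n := Nat.pow_le_pow_right (by omega) hn
  rw [pow_one] at h1
  omega

/-- **UnrNestSpec** (statement unfolded), assuming uniqueness of the ring of integers. -/
theorem unrNest534 (h0 : RingOfIntegersUniqueSpec) :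
    ∀ (K M : Type) [Field K] [Field M] [Algebra K M] [FiniteDimensional K M] [IsLocalFld K]
      (E₁ E₂ : IntermediateField K M), IsUnramifiedExt K E₁ → IsUnramifiedExt K E₂ →
        Module.finrank K E₁ ∣ Module.finrank K E₂ → E₁ ≤ E₂ := by
  intro K M _ _ _ _ hK E₁ E₂ h1 h2 hdvd
  obtain ⟨A, hA⟩ := hK.exists_ringOfIntegers
  haveI := hA.1
  haveI := hA.2.1
  haveI := hA.2.2
  obtain ⟨ζ₁, hζ₁, htop₁⟩ := exists_root_of_isUnramifiedExt534 h0 A hA E₁ h1
  obtain ⟨ζ₂, hζ₂, -⟩ := exists_root_of_isUnramifiedExt534 h0 A hA E₂ h2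
  set Q := Nat.card (ResidueField A) with hQ
  have hQ2 : 2 ≤ Q := two_le_card_residue534 A
  have hn₂ : 0 < Module.finrank K E₂ := Module.finrank_pos
  have hm₂ : 1 ≤ Q ^ Module.finrank K E₂ - 1 := one_le_pow_sub_one534 hQ2 hn₂
  haveI : NeZero (Q ^ Module.finrank K E₂ - 1) := ⟨by omega⟩
  have hmdvd : (Q ^ Module.finrank K E₁ - 1) ∣ (Q ^ Module.finrank K E₂ - 1) := by
    obtain ⟨k, hk⟩ := hdvd
    rw [hk, pow_mul]
    exact Nat.sub_one_dvd_pow_sub_one _ _
  have hζ₁M : ((ζ₁ : E₁) : M) ^ (Q ^ Module.finrank K E₂ - 1) = 1 := by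
    obtain ⟨k, hk⟩ := hmdvd
    rw [hk, pow_mul]
    have := congrArg (fun x : E₁ => (x : M)) hζ₁.pow_eq_one
    simp only [SubmonoidClass.coe_pow, OneMemClass.coe_one] at this
    rw [this, one_pow]
  have hζ₂M : IsPrimitiveRoot ((ζ₂ : E₂) : M) (Q ^ Module.finrank K E₂ - 1) :=
    hζ₂.map_of_injective (f := E₂.val) E₂.val.injective
  obtain ⟨i, -, hi⟩ := hζ₂M.eq_pow_of_pow_eq_one hζ₁M
  have hmem : ((ζ₁ : E₁) : M) ∈ E₂ := by
    rw [← hi]
    exact pow_mem ζ₂.2 i
  rw [eq_adjoin_of_adjoin_eq_top534 E₁ ζ₁ htop₁]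
  exact IntermediateField.adjoin_simple_le_iff.mpr hmem

/-- `Q ^ n - 1` is a unit of a local ring with residue field of cardinality `Q`. -/
theorem isUnit_card_pow_sub_one534 (R : Type) [CommRing R] [IsLocalRing R]
    [IsAdicComplete (maximalIdeal R) R] [Finite (ResidueField R)] {n : ℕ} (hn : 0 < n) :
    IsUnit (((Nat.card (ResidueField R) ^ n - 1 : ℕ) : ℕ) : R) := by
  rw [← notMem_maximalIdeal, ← residue_eq_zero_iff, map_natCast]
  have h1 : 1 ≤ Nat.card (ResidueField R) ^ n := Nat.one_le_pow _ _ Nat.card_pos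
  rw [Nat.cast_sub h1, Nat.cast_pow, card_residue_cast534 R, zero_pow hn.ne']
  simp

/-- A natural number which is a unit in the ring of integers of `K` is a unit in the ring of
integers of any finite extension `K'`. -/
theorem isUnit_natCast_ext534 (h0 : RingOfIntegersUniqueSpec)
    {K : Type} [Field K] [CharZero K] (A : ValuationSubring K) (hA : IsLocalRingOfIntegers A)
    (K' : Type) [Field K'] [Algebra K K'] [FiniteDimensional K K']
    (A' : ValuationSubring K') (hA' : IsLocalRingOfIntegers A') (m : ℕ)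
    (hm : IsUnit ((m : ℕ) : A)) : IsUnit ((m : ℕ) : A') := by
  haveI := hA.1
  haveI := hA.2.1
  haveI := hA.2.2
  have hAA : A' = intVS534 A K' hA := eq_intVS534 A K' h0 hA A' hA'
  subst hAA
  have h1 : IsUnit ((m : ℕ) : OE A K') := by
    have := hm.map (algebraMap A (OE A K'))
    rwa [map_natCast] at this
  have h2 := h1.map (equivVS534 A K' hA).symm
  rwa [map_natCast] at h2

/-- **UnrBCSpec** (statement unfolded), assuming uniqueness of the ring of integers. -/
theorem unrBC534 (h0 : RingOfIntegersUniqueSpec) :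
    ∀ (K K' M : Type) [Field K] [Field K'] [Field M] [Algebra K K'] [Algebra K M] [Algebra K' M]
      [IsScalarTower K K' M] [FiniteDimensional K M] [IsLocalFld K] [IsLocalFld K']
      (E : IntermediateField K M), IsUnramifiedExt K E →
        ∃ E' : IntermediateField K' M, IsUnramifiedExt K' E' ∧ ∀ x : M, x ∈ E → x ∈ E' := by
  intro K K' M _ _ _ _ _ _ _ _ hK hK' E hE
  obtain ⟨A, hA⟩ := hK.exists_ringOfIntegers
  obtain ⟨A', hA'⟩ := hK'.exists_ringOfIntegers
  haveI := hK.charZero
  haveI := hA.1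
  haveI := hA.2.1
  haveI := hA.2.2
  haveI : FiniteDimensional K K' := FiniteDimensional.left K K' M
  haveI : FiniteDimensional K' M := FiniteDimensional.right K K' M
  obtain ⟨ζ, hζ, htop⟩ := exists_root_of_isUnramifiedExt534 h0 A hA E hE
  set m := Nat.card (ResidueField A) ^ Module.finrank K E - 1 with hm
  have hn : 0 < Module.finrank K E := Module.finrank_pos
  have hmA : IsUnit ((m : ℕ) : A) := isUnit_card_pow_sub_one534 A hn
  have hmA' : IsUnit ((m : ℕ) : A') := isUnit_natCast_ext534 h0 A hA K' A' hA' m hmA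
  have hζM : ((ζ : E) : M) ^ m = 1 := by
    have := congrArg (fun x : E => (x : M)) hζ.pow_eq_one
    simpa using this
  refine ⟨K'⟮((ζ : E) : M)⟯, ?_, fun x hx => ?_⟩
  · refine isUnramifiedExt_of_root534 A' hA' (K'⟮((ζ : E) : M)⟯)
      ⟨((ζ : E) : M), mem_adjoin_simple_self K' _⟩ m hmA' (Subtype.ext ?_)
      (adjoin_gen_eq_top534 _)
    simpa using hζM
  · rw [eq_adjoin_of_adjoin_eq_top534 E ζ htop] at hx
    have hle : K⟮((ζ : E) : M)⟯ ≤ (K'⟮((ζ : E) : M)⟯).restrictScalars K :=
      IntermediateField.adjoin_simple_le_iff.mpr (mem_adjoin_simple_self K' _)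
    exact hle hx

end Fermat.Agent.S55.L.Unr534
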