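import Fermat.Agent.S55.L.Unr534.Abs

/-!
# S55, layer L, unramified extensions (helper534): bridge to valuation subrings

`K` a field of characteristic zero with a ring of integers `A : ValuationSubring K`
(`IsLocalRingOfIntegers A`), `E / K` finite.

* `intVS534 A E`   : the integral closure of `A` in `E` as a valuation subring of `E`;
* `isLocalRingOfIntegers_intVS534`;
* `eq_intVS534`    : (uniqueness) every ring of integers of `E` is `intVS534 A E`;
* `isUniformizer_intVS_iff534` : a uniformizer of `A` is a uniformizer of `intVS534 A E` iff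
  `𝔪_A C = 𝔪_C`.
-/

set_option autoImplicit false
set_option linter.style.haveILetI false
set_option linter.unusedSectionVars false

namespace Fermat.Agent.S55.L.Unr534

open IsLocalRing Polynomial IntermediateField

section VS

variable {K : Type} [Field K] [CharZero K] (A : ValuationSubring K)
  (E : Type) [Field E] [Algebra K E] [FiniteDimensional K E]

/-- The integral closure of `A` in `E` as a valuation subring of `E`. -/
noncomputable def intVS534 (hA : IsLocalRingOfIntegers A) : ValuationSubring E :=
  haveI := hA.1
  haveI := hA.2.1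
  haveI := hA.2.2
  { (integralClosure A E).toSubring with
    mem_or_inv_mem' := fun x => by
      haveI := isDVR_OE A K E
      haveI : IsFractionRing (OE A E) E := H661.intClosure_isFractionRing A K E (OE A E)
      rcases ValuationRing.isInteger_or_isInteger (OE A E) x with ⟨y, hy⟩ | ⟨y, hy⟩
      · left
        have : (y : E) = x := hy
        rw [← this]
        exact y.2
      · right
        have : (y : E) = x⁻¹ := hy
        rw [← this]
        exact y.2 }

theorem mem_intVS534 (hA : IsLocalRingOfIntegers A) (x : E) :
    x ∈ intVS534 A E hA ↔ IsIntegral A x := Iff.rfl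

theorem isLocalRingOfIntegers_intVS534 (hA : IsLocalRingOfIntegers A) :
    IsLocalRingOfIntegers (intVS534 A E hA) :=
  haveI := hA.1
  haveI := hA.2.1
  haveI := hA.2.2
  ⟨isDVR_OE A K E, isAdicComplete_OE A K E, finite_residueField_OE A K E⟩

/-- The identity, as a ring isomorphism between the two incarnations of the ring of integers. -/
noncomputable def equivVS534 (hA : IsLocalRingOfIntegers A) : intVS534 A E hA ≃+* OE A E where
  toFun x := ⟨x.1, x.2⟩
  invFun x := ⟨x.1, x.2⟩
  left_inv _ := rfl
  right_inv _ := rfl
  map_mul' _ _ := rfl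
  map_add' _ _ := rfl

/-- Uniqueness: every ring of integers of `E` is the integral closure of `A`. -/
theorem eq_intVS534 (h0 : RingOfIntegersUniqueSpec) (hA : IsLocalRingOfIntegers A)
    (B : ValuationSubring E) (hB : IsLocalRingOfIntegers B) : B = intVS534 A E hA := by
  haveI : IsLocalFld E :=
    ⟨charZero_of_injective_algebraMap (algebraMap K E).injective, ⟨B, hB⟩⟩
  exact h0 E B (intVS534 A E hA) hB (isLocalRingOfIntegers_intVS534 A E hA)

theorem coe_algebraMap_OE534 (a : A) :
    ((algebraMap A (OE A E) a : OE A E) : E) = algebraMap K E (a : K) := rfl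

/-- A uniformizer of `A` is a uniformizer of the ring of integers of `E` iff `𝔪_A C = 𝔪_C`. -/
theorem isUniformizer_intVS_iff534 (hA : IsLocalRingOfIntegers A) (π : K)
    (hπ : IsUniformizer A π) :
    haveI := hA.1
    haveI := hA.2.1
    haveI := hA.2.2
    haveI := isLocalRing_OE A K E
    IsUniformizer (intVS534 A E hA) (algebraMap K E π) ↔
      (maximalIdeal A).map (algebraMap A (OE A E)) = maximalIdeal (OE A E) := by
  haveI := hA.1
  haveI := hA.2.1
  haveI := hA.2.2
  haveI := isLocalRing_OE A K E
  haveI := isDVR_OE A K E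
  obtain ⟨hπA, hirr⟩ := hπ
  have hmax : maximalIdeal A = Ideal.span {(⟨π, hπA⟩ : A)} :=
    (IsDiscreteValuationRing.irreducible_iff_uniformizer _).mp hirr
  have hmap : (maximalIdeal A).map (algebraMap A (OE A E)) =
      Ideal.span {algebraMap A (OE A E) ⟨π, hπA⟩} := by
    rw [hmax, Ideal.map_span, Set.image_singleton]
  have hmem : algebraMap K E π ∈ intVS534 A E hA :=
    (algebraMap A (OE A E) ⟨π, hπA⟩).2
  have heq : equivVS534 A E hA ⟨algebraMap K E π, hmem⟩ = algebraMap A (OE A E) ⟨π, hπA⟩ :=
    Subtype.ext rfl
  rw [hmap]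
  constructor
  · rintro ⟨h', hirr'⟩
    have h1 : Irreducible (equivVS534 A E hA ⟨algebraMap K E π, h'⟩) :=
      (MulEquiv.irreducible_iff (equivVS534 A E hA).toMulEquiv).mpr hirr'
    rw [heq] at h1
    exact ((IsDiscreteValuationRing.irreducible_iff_uniformizer _).mp h1).symm
  · intro h
    have h1 : Irreducible (algebraMap A (OE A E) ⟨π, hπA⟩) :=
      (IsDiscreteValuationRing.irreducible_iff_uniformizer _).mpr h.symm
    rw [← heq] at h1
    exact ⟨hmem, (MulEquiv.irreducible_iff (equivVS534 A E hA).toMulEquiv).mp h1⟩

/-- A ring of integers has a uniformizer. -/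
theorem exists_isUniformizer534 (hA : IsLocalRingOfIntegers A) : ∃ π : K, IsUniformizer A π := by
  haveI := hA.1
  obtain ⟨ϖ, hϖ⟩ := IsDiscreteValuationRing.exists_irreducible A
  exact ⟨(ϖ : K), ϖ.2, hϖ⟩

end VS

end Fermat.Agent.S55.L.Unr534
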